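import Fermat.Prelude.Def_FLTPrelim_ModularRep
import Fermat.Prelude.Def_FreyPackage_IsConductorLevel
import Fermat.Agent.S49.Formal
import Fermat.Agent.S49.Lift
import Fermat.Agent.S49.QCoeff
import Fermat.Agent.QInt.Main

/-!
# MR (row S39/S40/S44) : the top glue `[TOP-DS]` (helper24)

* `congIdeal N p a Good` : the ideal of the FULL Hecke algebra of `S₂(Γ₀(N))` generated by `p` and the
  `T_ℓ - a ℓ` (`ℓ ∤ N` prime, `Good ℓ`).
* `exists_eigenform_of_congIdeal_ne_top` : if it is proper there is a normalised eigenform of level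
  `N` congruent to `a` (Deligne-Serre lifting, from S49 + S23).
* `congIdeal_ne_top_of_form` : it is proper as soon as there is a form `G` of level `N` with
  `𝔪'`-integral `q`-expansion, nonzero mod `𝔪'`, which is an eigenvector mod `𝔪'`.
-/

set_option autoImplicit false

namespace Fermat.Agent.MR

open CuspForm ModularFormClass CongruenceSubgroup Fermat.Agent.S49

/-- The congruence ideal of the full Hecke algebra. -/
noncomputable def congIdeal (N : ℕ) [NeZero N] (p : ℕ) (a : ℕ → ℤ) (Good : ℕ → Prop) :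
    Ideal (CuspForm.heckeAlgebra N 2 ∅) :=
  Ideal.span ({(p : CuspForm.heckeAlgebra N 2 ∅)} ∪
    {x | ∃ (ℓ : ℕ) (hℓ : ℓ.Prime) (hℓN : ¬ ℓ ∣ N), Good ℓ ∧
      x = heckeAlgebra.T hℓ hℓN (Set.notMem_empty ℓ) - ((a ℓ : ℤ) : CuspForm.heckeAlgebra N 2 ∅)})

theorem natCast_mem_congIdeal (N : ℕ) [NeZero N] (p : ℕ) (a : ℕ → ℤ) (Good : ℕ → Prop) :
    (p : CuspForm.heckeAlgebra N 2 ∅) ∈ congIdeal N p a Good :=
  Ideal.subset_span (Or.inl rfl)

theorem T_sub_mem_congIdeal' (N : ℕ) [NeZero N] (p : ℕ) (a : ℕ → ℤ) (Good : ℕ → Prop) {ℓ : ℕ}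
    (hℓ : ℓ.Prime) (hℓN : ¬ ℓ ∣ N) (hg : Good ℓ) :
    heckeAlgebra.T hℓ hℓN (Set.notMem_empty ℓ) - ((a ℓ : ℤ) : CuspForm.heckeAlgebra N 2 ∅)
      ∈ congIdeal N p a Good :=
  Ideal.subset_span (Or.inr ⟨ℓ, hℓ, hℓN, hg, rfl⟩)

/-- **Deligne-Serre lifting.** -/
theorem exists_eigenform_of_congIdeal_ne_top {N : ℕ} [NeZero N] (p : ℕ) (a : ℕ → ℤ)
    (Good : ℕ → Prop) (h : congIdeal N p a Good ≠ ⊤) :
    ∃ (f : CuspForm (Gamma0 N) 2) (𝔪' : Ideal (integralClosure ℤ ℂ)),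
      f.IsNormalizedEigenform ∧ 𝔪'.IsMaximal ∧ (p : integralClosure ℤ ℂ) ∈ 𝔪' ∧
      ∀ ℓ : ℕ, ℓ.Prime → ¬ ℓ ∣ N → Good ℓ →
        ∃ c : integralClosure ℤ ℂ, (c : ℂ) = ModularFormClass.qCoeff f ℓ ∧
          c - ((a ℓ : ℤ) : integralClosure ℤ ℂ) ∈ 𝔪' := by
  obtain ⟨𝔫, h𝔫, hle⟩ := Ideal.exists_le_maximal _ h
  have hspan : Submodule.span ℂ
      ((CuspForm.intLattice N 2 : Submodule ℤ _) : Set (CuspForm (Gamma0 N) 2)) = ⊤ :=
    Fermat.Agent.QInt.hasIntegralStructure N 2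
  obtain ⟨χ, g, 𝔪', hg0, hχ, hmax', hcomap⟩ := exists_lift_character (CuspForm.intLattice N 2)
    (CuspForm.intLattice_fg N 2) hspan
    ((CuspForm.heckeAlgebra N 2 ∅).val.toRingHom) Subtype.val_injective
    (fun r v hv => CuspForm.mem_intLattice_of_mem_heckeAlgebra (by norm_num) r.2 hv) 𝔫
  -- the eigenvalues
  let c : ℕ → ℂ := fun ℓ => if hℓ : ℓ.Prime then
    (if hℓN : ℓ ∣ N then (χ (heckeAlgebra.U hℓ hℓN (Set.notMem_empty ℓ)) : ℂ)
      else (χ (heckeAlgebra.T hℓ hℓN (Set.notMem_empty ℓ)) : ℂ)) else 0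
  let e : ℕ → ℂ := fun ℓ => if ℓ ∣ N then 0 else (ℓ : ℂ)
  have hrel : ∀ ℓ : ℕ, ℓ.Prime → ∀ n : ℕ,
      qCoeff g (ℓ * n) + e ℓ * (if ℓ ∣ n then qCoeff g (n / ℓ) else 0) = c ℓ * qCoeff g n := by
    intro ℓ hℓ n
    by_cases hℓN : ℓ ∣ N
    · have h1 : heckeULin 2 hℓN g = (χ (heckeAlgebra.U hℓ hℓN (Set.notMem_empty ℓ)) : ℂ) • g :=
        hχ (heckeAlgebra.U hℓ hℓN (Set.notMem_empty ℓ))
      have h2 := congrArg (fun F => qCoeffLin N n F) h1
      simp only [map_smul, qCoeffLin_apply, qCoeff_heckeULin hℓ, smul_eq_mul] at h2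
      simp only [e, c, dif_pos hℓ, dif_pos hℓN, if_pos hℓN, zero_mul, add_zero]
      exact h2
    · have h1 : heckeTLin 2 hℓ hℓN g = (χ (heckeAlgebra.T hℓ hℓN (Set.notMem_empty ℓ)) : ℂ) • g :=
        hχ (heckeAlgebra.T hℓ hℓN (Set.notMem_empty ℓ))
      have h2 := congrArg (fun F => qCoeffLin N n F) h1
      simp only [map_smul, qCoeffLin_apply, qCoeff_heckeTLin, smul_eq_mul] at h2
      simp only [e, c, dif_pos hℓ, dif_neg hℓN, if_neg hℓN]
      exact h2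
  have hb1 : qCoeff g 1 ≠ 0 := by
    intro h1
    apply hg0
    apply eq_zero_of_qCoeff
    intro n
    by_cases hn : n = 0
    · rw [hn]; exact qCoeff_zero_eq g
    · exact eq_zero_of_isEigen_of_one_eq_zero (a := fun n => qCoeff g n) h1 hrel n hn
  -- normalise
  obtain ⟨g', hg'def⟩ : ∃ g' : CuspForm (Gamma0 N) 2, g' = (qCoeff g 1)⁻¹ • g := ⟨_, rfl⟩
  have hg' : ∀ n, qCoeff g' n = (qCoeff g 1)⁻¹ * qCoeff g n := fun n => by
    rw [hg'def, ← qCoeffLin_apply n, map_smul, qCoeffLin_apply, smul_eq_mul]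
  have hg'1 : qCoeff g' 1 = 1 := by rw [hg', inv_mul_cancel₀ hb1]
  have hrel' : ∀ ℓ : ℕ, ℓ.Prime → ∀ n : ℕ,
      qCoeff g' (ℓ * n) + e ℓ * (if ℓ ∣ n then qCoeff g' (n / ℓ) else 0) = c ℓ * qCoeff g' n := by
    intro ℓ hℓ n
    have := hrel ℓ hℓ n
    simp only [hg']
    split_ifs at this ⊢
    · linear_combination (qCoeff g 1)⁻¹ * this
    · linear_combination (qCoeff g 1)⁻¹ * this
  have hc : ∀ ℓ : ℕ, ℓ.Prime → c ℓ = qCoeff g' ℓ := by
    intro ℓ hℓ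
    have := hrel' ℓ hℓ 1
    rw [if_neg (fun hd => hℓ.one_lt.ne' (Nat.dvd_one.mp hd)), mul_zero, add_zero, mul_one, hg'1,
      mul_one] at this
    exact this.symm
  have hsys : FormalHecke.IsEigensystem e (fun n => qCoeff g' n) :=
    ⟨hg'1, fun ℓ hℓ n => by rw [hrel' ℓ hℓ n, hc ℓ hℓ]⟩
  obtain ⟨r1, r2, r3⟩ := isRecursive_of_isEigensystem hsys
  refine ⟨g', 𝔪', ⟨r1, r2, ?_, ?_⟩, hmax', ?_, ?_⟩
  · intro q r hq hqN
    have := r3 q r hq
    simp only [e, if_neg hqN] at this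
    exact this
  · intro q r hq hqN
    have := r3 q r hq
    simp only [e, if_pos hqN, zero_mul, sub_zero] at this
    exact this
  · have h3 : (p : CuspForm.heckeAlgebra N 2 ∅) ∈ 𝔪'.comap χ := by
      rw [hcomap]; exact hle (natCast_mem_congIdeal N p a Good)
    rw [Ideal.mem_comap, map_natCast] at h3
    exact h3
  · intro ℓ hℓ hℓN hgood
    refine ⟨χ (heckeAlgebra.T hℓ hℓN (Set.notMem_empty ℓ)), ?_, ?_⟩
    · rw [← hc ℓ hℓ]
      simp only [c, dif_pos hℓ, dif_neg hℓN]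
    · have hm : (heckeAlgebra.T hℓ hℓN (Set.notMem_empty ℓ) : CuspForm.heckeAlgebra N 2 ∅)
          - ((a ℓ : ℤ) : CuspForm.heckeAlgebra N 2 ∅) ∈ 𝔪'.comap χ := by
        rw [hcomap]; exact hle (T_sub_mem_congIdeal' N p a Good hℓ hℓN hgood)
      rw [Ideal.mem_comap, map_sub, map_intCast] at hm
      exact hm

/-! ## consequences for the frozen statements -/

/-- `W` is residually modular of level `N` as soon as the congruence ideal is proper. -/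
theorem isResiduallyModularOfLevel_of {N : ℕ} [NeZero N] (W : WeierstrassCurve ℤ) (p : ℕ)
    (h : congIdeal N p (fun ℓ => W.apOfModel ℓ) (fun ℓ => W.IsGoodPrimeFor ℓ ∧ ℓ ≠ p) ≠ ⊤) :
    W.IsResiduallyModularOfLevel p N := by
  obtain ⟨f, 𝔪', hf, hmax, hp, hc⟩ := exists_eigenform_of_congIdeal_ne_top p _ _ h
  exact ⟨f, 𝔪', hf, hmax, hp, fun ℓ hℓ hg hℓN hℓp => hc ℓ hℓ hℓN ⟨hg, hℓp⟩⟩

/-- The Frey representation is modular of level `N` as soon as the congruence ideal is proper. -/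
theorem modularRepOfLevel_of (P : FreyPackage) {N : ℕ} [NeZero N] (W : WeierstrassCurve ℤ)
    (hW : W.IsIntegralModelOf P.freyCurve)
    (h : congIdeal N P.p (fun ℓ => W.apOfModel ℓ) (fun ℓ => W.IsGoodPrimeFor ℓ ∧ ℓ ≠ P.p) ≠ ⊤) :
    P.ModularRepOfLevel N := by
  obtain ⟨f, 𝔪', hf, hmax, hp, hc⟩ := exists_eigenform_of_congIdeal_ne_top P.p _ _ h
  exact ⟨f, W, 𝔪', hf, hW, hmax, hp, fun ℓ hℓ hg hℓN hℓp => hc ℓ hℓ hℓN ⟨hg, hℓp⟩⟩

/-! ## the bridge from a mod `𝔪'` eigenvector to `congIdeal ≠ ⊤` -/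

/-- `z` lies in the localisation of `ℤ̄` at `𝔪'`. -/
def LInt (𝔪' : Ideal (integralClosure ℤ ℂ)) (z : ℂ) : Prop :=
  ∃ s : integralClosure ℤ ℂ, s ∉ 𝔪' ∧ ∃ c : integralClosure ℤ ℂ, (s : ℂ) * z = c

/-- `z` lies in the maximal ideal of the localisation of `ℤ̄` at `𝔪'`. -/
def LPos (𝔪' : Ideal (integralClosure ℤ ℂ)) (z : ℂ) : Prop :=
  ∃ s : integralClosure ℤ ℂ, s ∉ 𝔪' ∧ ∃ c ∈ 𝔪', (s : ℂ) * z = (c : integralClosure ℤ ℂ)

section Loc

variable {𝔪' : Ideal (integralClosure ℤ ℂ)}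

theorem LPos.lInt {z : ℂ} (h : LPos 𝔪' z) : LInt 𝔪' z := by
  obtain ⟨s, hs, c, -, e⟩ := h
  exact ⟨s, hs, c, e⟩

theorem LPos.intCast_mul {z : ℂ} (h : LPos 𝔪' z) (m : ℤ) : LPos 𝔪' ((m : ℂ) * z) := by
  obtain ⟨s, hs, c, hc, e⟩ := h
  refine ⟨s, hs, (m : integralClosure ℤ ℂ) * c, 𝔪'.mul_mem_left _ hc, ?_⟩
  push_cast
  rw [← e]; ring

theorem LInt.mul_of_mem {z : ℂ} (h : LInt 𝔪' z) {x : integralClosure ℤ ℂ} (hx : x ∈ 𝔪') :
    LPos 𝔪' ((x : ℂ) * z) := by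
  obtain ⟨s, hs, c, e⟩ := h
  refine ⟨s, hs, x * c, 𝔪'.mul_mem_right _ hx, ?_⟩
  push_cast
  rw [← e]; ring

variable [h𝔪 : 𝔪'.IsPrime]

theorem lPos_zero : LPos 𝔪' 0 :=
  ⟨1, fun h => h𝔪.ne_top ((Ideal.eq_top_iff_one _).2 h), 0, 𝔪'.zero_mem, by simp⟩

theorem LPos.add {z z' : ℂ} (h : LPos 𝔪' z) (h' : LPos 𝔪' z') : LPos 𝔪' (z + z') := by
  obtain ⟨s, hs, c, hc, e⟩ := h
  obtain ⟨s', hs', c', hc', e'⟩ := h'
  refine ⟨s * s', fun h => (h𝔪.mem_or_mem h).elim hs hs', s' * c + s * c',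
    𝔪'.add_mem (𝔪'.mul_mem_left _ hc) (𝔪'.mul_mem_left _ hc'), ?_⟩
  push_cast
  rw [← e, ← e']; ring

end Loc

/-- all `q`-coefficients are in the maximal ideal. -/
def FPos {N : ℕ} (𝔪' : Ideal (integralClosure ℤ ℂ)) (F : CuspForm (Gamma0 N) 2) : Prop :=
  ∀ n, LPos 𝔪' (qCoeff F n)

theorem FPos.hecke {N : ℕ} [NeZero N] {𝔪' : Ideal (integralClosure ℤ ℂ)} [𝔪'.IsPrime]
    {t : Module.End ℂ (CuspForm (Gamma0 N) 2)} (ht : t ∈ CuspForm.heckeAlgebra N 2 ∅) :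
    ∀ F : CuspForm (Gamma0 N) 2, FPos 𝔪' F → FPos 𝔪' (t F) := by
  unfold CuspForm.heckeAlgebra at ht
  induction ht using Algebra.adjoin_induction with
  | mem x hx =>
    intro F hF n
    rcases hx with ⟨ℓ, hℓ, hℓN, -, rfl⟩ | ⟨q, hqN, hq, -, rfl⟩
    · rw [qCoeff_heckeTLin]
      refine (hF _).add ?_
      split_ifs
      · exact_mod_cast (hF (n / ℓ)).intCast_mul (ℓ : ℤ)
      · rw [mul_zero]; exact lPos_zero
    · rw [qCoeff_heckeULin hq]
      exact hF _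
  | algebraMap r =>
    intro F hF n
    have : (algebraMap ℤ (Module.End ℂ (CuspForm (Gamma0 N) 2)) r) F = (r : ℂ) • F := by
      rw [Algebra.algebraMap_eq_smul_one, LinearMap.smul_apply, Module.End.one_apply,
        Int.cast_smul_eq_zsmul]
    rw [this, ← qCoeffLin_apply, map_smul, qCoeffLin_apply, smul_eq_mul]
    exact (hF n).intCast_mul r
  | add x y _ _ hx hy =>
    intro F hF n
    rw [LinearMap.add_apply, ← qCoeffLin_apply, map_add, qCoeffLin_apply, qCoeffLin_apply]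
    exact (hx F hF n).add (hy F hF n)
  | mul x y _ _ hx hy =>
    intro F hF
    rw [Module.End.mul_apply]
    exact hx _ (hy F hF)

/-- **The bridge**: a form with `𝔪'`-integral `q`-expansion, nonzero mod `𝔪'`, which is an
eigenvector mod `𝔪'` of the `T_ℓ` (`Good ℓ`) with eigenvalues `a ℓ`, makes the congruence ideal
proper. -/
theorem congIdeal_ne_top_of_form {N : ℕ} [NeZero N] (p : ℕ) (a : ℕ → ℤ) (Good : ℕ → Prop)
    (𝔪' : Ideal (integralClosure ℤ ℂ)) [𝔪'.IsPrime] (hp : (p : integralClosure ℤ ℂ) ∈ 𝔪')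
    (G : CuspForm (Gamma0 N) 2) (hG : ∀ n, LInt 𝔪' (qCoeff G n))
    (hG0 : ∃ n, ¬ LPos 𝔪' (qCoeff G n))
    (hT : ∀ (ℓ : ℕ) (hℓ : ℓ.Prime) (hℓN : ¬ ℓ ∣ N), Good ℓ → ∀ n,
      LPos 𝔪' (qCoeff (heckeTLin 2 hℓ hℓN G) n - (a ℓ : ℂ) * qCoeff G n)) :
    congIdeal N p a Good ≠ ⊤ := by
  intro htop
  have key : ∀ r ∈ congIdeal N p a Good,
      FPos 𝔪' ((r : Module.End ℂ (CuspForm (Gamma0 N) 2)) G) := by
    intro r hr
    unfold congIdeal at hr
    induction hr using Submodule.span_induction with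
    | mem x hx =>
      rcases hx with hx | ⟨ℓ, hℓ, hℓN, hg, rfl⟩
      · rw [Set.mem_singleton_iff] at hx
        subst hx
        intro n
        have : (((p : CuspForm.heckeAlgebra N 2 ∅) :
            Module.End ℂ (CuspForm (Gamma0 N) 2))) G = (p : ℂ) • G := by
          have e : (((p : CuspForm.heckeAlgebra N 2 ∅) :
              Module.End ℂ (CuspForm (Gamma0 N) 2))) = (p : Module.End ℂ (CuspForm (Gamma0 N) 2)) :=
            map_natCast (CuspForm.heckeAlgebra N 2 ∅).val p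
          rw [e, ← nsmul_one, LinearMap.smul_apply, Module.End.one_apply,
            Nat.cast_smul_eq_nsmul]
        rw [this, ← qCoeffLin_apply, map_smul, qCoeffLin_apply, smul_eq_mul]
        exact_mod_cast (hG n).mul_of_mem hp
      · intro n
        have : (((heckeAlgebra.T hℓ hℓN (Set.notMem_empty ℓ) -
            ((a ℓ : ℤ) : CuspForm.heckeAlgebra N 2 ∅) : CuspForm.heckeAlgebra N 2 ∅)) :
            Module.End ℂ (CuspForm (Gamma0 N) 2)) G = heckeTLin 2 hℓ hℓN G - (a ℓ : ℂ) • G := by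
          have e : ((((a ℓ : ℤ) : CuspForm.heckeAlgebra N 2 ∅) :
              Module.End ℂ (CuspForm (Gamma0 N) 2))) =
              ((a ℓ : ℤ) : Module.End ℂ (CuspForm (Gamma0 N) 2)) :=
            map_intCast (CuspForm.heckeAlgebra N 2 ∅).val (a ℓ)
          rw [Subalgebra.coe_sub, heckeAlgebra.coe_T, e, LinearMap.sub_apply,
            ← zsmul_one, LinearMap.smul_apply, Module.End.one_apply, Int.cast_smul_eq_zsmul]
        rw [this, ← qCoeffLin_apply, map_sub, map_smul, qCoeffLin_apply, qCoeffLin_apply,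
          smul_eq_mul]
        exact hT ℓ hℓ hℓN hg n
    | zero =>
      intro n
      rw [Subalgebra.coe_zero, LinearMap.zero_apply, ← qCoeffLin_apply, map_zero]
      exact lPos_zero
    | add x y _ _ hx hy =>
      intro n
      rw [Subalgebra.coe_add, LinearMap.add_apply, ← qCoeffLin_apply, map_add, qCoeffLin_apply,
        qCoeffLin_apply]
      exact (hx n).add (hy n)
    | smul r x _ hx =>
      rw [smul_eq_mul, Subalgebra.coe_mul, Module.End.mul_apply]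
      exact FPos.hecke r.2 _ hx
  obtain ⟨n, hn⟩ := hG0
  have h1 := key 1 (htop ▸ Submodule.mem_top) n
  rw [Subalgebra.coe_one, Module.End.one_apply] at h1
  exact hn h1

/-! ## the frozen statement S44 from the core -/

open WeierstrassCurve WeierstrassCurve.Affine WeierstrassCurve.Affine.Point in
/-- **The contract of the core of MR** (level `N = p N'`). -/
def Stmt_Core : Prop :=
  ∀ (P : FreyPackage) (N' : ℕ) [NeZero N'], P.IsConductorLevel (P.p * N') →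
    GaloisRepIsIrreducible (K := AlgebraicClosure ℚ) ℚ P.freyCurve P.p →
    ∀ (f : CuspForm (Gamma0 (P.p * N')) 2) (W : WeierstrassCurve ℤ)
      (𝔪 : Ideal (integralClosure ℤ ℂ)),
    f.IsNormalizedEigenform → W.IsIntegralModelOf P.freyCurve → 𝔪.IsMaximal →
    (P.p : integralClosure ℤ ℂ) ∈ 𝔪 →
    (∀ ℓ : ℕ, ℓ.Prime → W.IsGoodPrimeFor ℓ → ¬ ℓ ∣ P.p * N' → ℓ ≠ P.p →
      ∃ a : integralClosure ℤ ℂ, (a : ℂ) = ModularFormClass.qCoeff f ℓ ∧
        a - ((W.apOfModel ℓ : ℤ) : integralClosure ℤ ℂ) ∈ 𝔪) →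
    congIdeal N' P.p (fun ℓ => W.apOfModel ℓ) (fun ℓ => W.IsGoodPrimeFor ℓ ∧ ℓ ≠ P.p) ≠ ⊤

open WeierstrassCurve WeierstrassCurve.Affine WeierstrassCurve.Affine.Point in
/-- The frozen statement S44 (verbatim) from the core. -/
theorem S44_of_core (hcore : Stmt_Core) (P : FreyPackage) {N : ℕ} (hcond : P.IsConductorLevel N)
    (hpN : P.p ∣ N)
    (hirr : GaloisRepIsIrreducible (K := AlgebraicClosure ℚ) ℚ P.freyCurve P.p)
    (hmod : P.ModularRepOfLevel N) : ∃ M : ℕ, M ∣ N ∧ ¬ P.p ∣ M ∧ P.ModularRepOfLevel M := by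
  obtain ⟨N', rfl⟩ := hpN
  have hN' : N' ≠ 0 := by
    rintro rfl
    exact absurd hcond.pos (by simp)
  have : NeZero N' := ⟨hN'⟩
  obtain ⟨f, W, 𝔪, hf, hW, hmax, hp, hc⟩ := hmod
  refine ⟨N', Dvd.intro_left _ rfl, ?_, ?_⟩
  · rintro ⟨k, rfl⟩
    exact hcond.sq_not_dvd P.pp ⟨k, by ring⟩
  · exact modularRepOfLevel_of P W hW (hcore P N' hcond hirr f W 𝔪 hf hW hmax hp hc)

end Fermat.Agent.MR
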